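import Mathlib

/-!
# S52 / H890 : existence of Tate parameters (pure algebra)

Over an algebraically closed field `k` in which `2, 3, 5` are invertible, every pair `(c4, c6)` with
`c4 ^ 3 ≠ c6 ^ 2` is of the form `c4 = lam ^ 4 * H5 c 1`, `c6 = lam ^ 6 * T5 c 1` with
`lam ≠ 0`, `c ≠ 0`, `c ^ 2 - 11 * c - 1 ≠ 0`; i.e. the short Weierstrass curve with invariants
`(c4, c6)` is a twist of the Tate normal form `y² + (1-c)xy - cy = x³ - cx²` (which carries the
point `(0,0)` of order `5`).  No torsion point is needed as input.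
-/

set_option autoImplicit false

namespace Fermat.Agent.S52.H890

/-- The binary quartic form giving `c₄` of the Tate normal form of order `5`. -/
def H5 {R : Type*} [CommRing R] (X Y : R) : R :=
  X ^ 4 - 12 * X ^ 3 * Y + 14 * X ^ 2 * Y ^ 2 + 12 * X * Y ^ 3 + Y ^ 4

/-- The binary sextic form giving `c₆` of the Tate normal form of order `5`. -/
def T5 {R : Type*} [CommRing R] (X Y : R) : R :=
  -((X ^ 2 + Y ^ 2) * (X ^ 4 - 18 * X ^ 3 * Y + 74 * X ^ 2 * Y ^ 2 + 18 * X * Y ^ 3 + Y ^ 4))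

lemma H5_cube_sub_T5_sq {R : Type*} [CommRing R] (X Y : R) :
    H5 X Y ^ 3 - T5 X Y ^ 2 = 1728 * (X * Y) ^ 5 * (X ^ 2 - 11 * X * Y - Y ^ 2) := by
  simp only [H5, T5]; ring

lemma H5_one_eq {R : Type*} [CommRing R] (c : R) :
    H5 c 1 = (c ^ 2 - 11 * c - 1) * (c ^ 2 - c - 1) + 5 * c ^ 2 := by
  simp only [H5]; ring

section Field

variable {k : Type*} [Field k]

lemma ne_zero_1728 (h2 : (2 : k) ≠ 0) (h3 : (3 : k) ≠ 0) : (1728 : k) ≠ 0 := by
  have : (1728 : k) = 2 ^ 6 * 3 ^ 3 := by norm_num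
  rw [this]; exact mul_ne_zero (pow_ne_zero _ h2) (pow_ne_zero _ h3)

/-- `H5(c,1)` and `T5(c,1)` have no common zero when `2, 3, 5` are invertible. -/
lemma H5_T5_not_both_zero (h2 : (2 : k) ≠ 0) (h3 : (3 : k) ≠ 0) (h5 : (5 : k) ≠ 0) (c : k)
    (hH : H5 c 1 = 0) (hT : T5 c 1 = 0) : False := by
  have h1728 := ne_zero_1728 h2 h3
  have key := H5_cube_sub_T5_sq c (1 : k)
  rw [hH, hT] at key
  have key2 : (1728 : k) * (c * 1) ^ 5 * (c ^ 2 - 11 * c * 1 - 1 ^ 2) = 0 := by
    rw [← key]; ring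
  rcases mul_eq_zero.mp key2 with h | h
  · rcases mul_eq_zero.mp h with h | h
    · exact h1728 h
    · have hc : c = 0 := by simpa using h
      rw [hc] at hH; simp [H5] at hH
  · have hq : c ^ 2 - 11 * c - 1 = 0 := by simpa using h
    have := H5_one_eq c
    rw [hH, hq] at this
    have hc2 : (5 : k) * c ^ 2 = 0 := by rw [this]; ring
    have hc : c = 0 := by
      rcases mul_eq_zero.mp hc2 with h | h
      · exact absurd h h5
      · simpa using h
    rw [hc] at hq; norm_num at hq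

open Polynomial in
/-- Over an algebraically closed field, the degree-`12` equation
`c4³·T5(c,1)² = c6²·H5(c,1)³` has a solution `c` as soon as `c4³ ≠ c6²`. -/
lemma exists_root_tate [IsAlgClosed k] (c4 c6 : k) (hΔ : c4 ^ 3 - c6 ^ 2 ≠ 0) :
    ∃ c : k, c4 ^ 3 * T5 c 1 ^ 2 = c6 ^ 2 * H5 c 1 ^ 3 := by
  set A : k := c4 ^ 3 with hA
  set B : k := c6 ^ 2 with hB
  let p : k[X] := C (A - B) * X ^ 12 + C (-36 * A + 36 * B) * X ^ 11 + C (474 * A - 474 * B) * X ^ 10
    + C (-2700 * A + 2700 * B) * X ^ 9 + C (5775 * A - 5775 * B) * X ^ 8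
    + C (-2664 * A + 936 * B) * X ^ 7 + C (10604 * A + 8404 * B) * X ^ 6
    + C (2664 * A - 936 * B) * X ^ 5 + C (5775 * A - 5775 * B) * X ^ 4
    + C (2700 * A - 2700 * B) * X ^ 3 + C (474 * A - 474 * B) * X ^ 2
    + C (36 * A - 36 * B) * X + C (A - B)
  have hnat : p.natDegree = 12 := by
    simp only [p]
    compute_degree!
  have hdeg : p.degree ≠ 0 := by
    intro h0
    have : p.natDegree = 0 := natDegree_eq_zero_iff_degree_le_zero.mpr (le_of_eq h0)
    omega
  obtain ⟨c, hc⟩ := IsAlgClosed.exists_root p hdeg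
  refine ⟨c, ?_⟩
  have := hc
  simp only [p, IsRoot.def, eval_add, eval_mul, eval_C, eval_pow, eval_X] at this
  simp only [H5, T5]
  linear_combination this

/-- **Existence of Tate parameters.** Over an algebraically closed field in which `2, 3, 5` are
invertible, any `(c4, c6)` with `c4³ ≠ c6²` equals `(lam⁴·H5(c,1), lam⁶·T5(c,1))` for some
`lam ≠ 0` and some `c` with `c ≠ 0`, `c² - 11c - 1 ≠ 0`. -/
theorem exists_tate_params [IsAlgClosed k] (h2 : (2 : k) ≠ 0) (h3 : (3 : k) ≠ 0)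
    (h5 : (5 : k) ≠ 0) (c4 c6 : k) (hΔ : c4 ^ 3 - c6 ^ 2 ≠ 0) :
    ∃ c lam : k, lam ≠ 0 ∧ c ≠ 0 ∧ c ^ 2 - 11 * c - 1 ≠ 0 ∧
      c4 = lam ^ 4 * H5 c 1 ∧ c6 = lam ^ 6 * T5 c 1 := by
  obtain ⟨c, hc⟩ := exists_root_tate c4 c6 hΔ
  have hnb : ¬ (H5 c 1 = 0 ∧ T5 c 1 = 0) := fun h => H5_T5_not_both_zero h2 h3 h5 c h.1 h.2
  have h1728 := ne_zero_1728 h2 h3
  have hid := H5_cube_sub_T5_sq c (1 : k)
  -- the cusp condition
  have hcusp : c ^ 5 * (c ^ 2 - 11 * c - 1) ≠ 0 := by
    intro h0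
    have hHT : H5 c 1 ^ 3 = T5 c 1 ^ 2 := by
      have : H5 c 1 ^ 3 - T5 c 1 ^ 2 = 0 := by
        rw [hid]
        have : (1728 : k) * (c * 1) ^ 5 * (c ^ 2 - 11 * c * 1 - 1 ^ 2)
            = 1728 * (c ^ 5 * (c ^ 2 - 11 * c - 1)) := by ring
        rw [this, h0, mul_zero]
      exact sub_eq_zero.mp this
    have h1 : (c4 ^ 3 - c6 ^ 2) * T5 c 1 ^ 2 = 0 := by
      rw [sub_mul, hc, hHT]; ring
    have hT : T5 c 1 = 0 := by
      rcases mul_eq_zero.mp h1 with h | h
      · exact absurd h hΔ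
      · simpa using h
    have hH : H5 c 1 = 0 := by
      rw [hT] at hHT
      have : H5 c 1 ^ 3 = 0 := by rw [hHT]; ring
      simpa using this
    exact hnb ⟨hH, hT⟩
  have hc0 : c ≠ 0 := by
    rintro rfl; exact hcusp (by ring)
  have hcq : c ^ 2 - 11 * c - 1 ≠ 0 := by
    intro h; exact hcusp (by rw [h, mul_zero])
  by_cases h4 : c4 = 0
  · -- `c4 = 0`: then `H5 = 0`, `T5 ≠ 0`, take a sixth root
    have h6 : c6 ≠ 0 := by
      rintro rfl; apply hΔ; rw [h4]; ring
    have hH : H5 c 1 = 0 := by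
      rw [h4] at hc
      have : c6 ^ 2 * H5 c 1 ^ 3 = 0 := by rw [← hc]; ring
      rcases mul_eq_zero.mp this with h | h
      · exact absurd (by simpa using h) h6
      · simpa using h
    have hT : T5 c 1 ≠ 0 := fun h => hnb ⟨hH, h⟩
    obtain ⟨lam, hlam⟩ := IsAlgClosed.exists_pow_nat_eq (c6 / T5 c 1) (n := 6) (by norm_num)
    refine ⟨c, lam, ?_, hc0, hcq, ?_, ?_⟩
    · rintro rfl
      have : c6 / T5 c 1 = 0 := by rw [← hlam]; ring
      rcases div_eq_zero_iff.mp this with h | h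
      · exact h6 h
      · exact hT h
    · rw [h4, hH, mul_zero]
    · rw [hlam]; field_simp
  · by_cases h6 : c6 = 0
    · -- `c6 = 0`: then `T5 = 0`, `H5 ≠ 0`, take a fourth root
      have hT : T5 c 1 = 0 := by
        rw [h6] at hc
        have : c4 ^ 3 * T5 c 1 ^ 2 = 0 := by rw [hc]; ring
        rcases mul_eq_zero.mp this with h | h
        · exact absurd (by simpa using h) h4
        · simpa using h
      have hH : H5 c 1 ≠ 0 := fun h => hnb ⟨h, hT⟩
      obtain ⟨lam, hlam⟩ := IsAlgClosed.exists_pow_nat_eq (c4 / H5 c 1) (n := 4) (by norm_num)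
      refine ⟨c, lam, ?_, hc0, hcq, ?_, ?_⟩
      · rintro rfl
        have : c4 / H5 c 1 = 0 := by rw [← hlam]; ring
        rcases div_eq_zero_iff.mp this with h | h
        · exact h4 h
        · exact hH h
      · rw [hlam]; field_simp
      · rw [h6, hT, mul_zero]
    · -- generic case
      have hH : H5 c 1 ≠ 0 := by
        intro h
        rw [h] at hc
        have : c4 ^ 3 * T5 c 1 ^ 2 = 0 := by rw [hc]; ring
        rcases mul_eq_zero.mp this with h' | h'
        · exact absurd (by simpa using h') h4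
        · exact hnb ⟨h, by simpa using h'⟩
      have hT : T5 c 1 ≠ 0 := by
        intro h
        rw [h] at hc
        have : c6 ^ 2 * H5 c 1 ^ 3 = 0 := by rw [← hc]; ring
        rcases mul_eq_zero.mp this with h' | h'
        · exact absurd (by simpa using h') h6
        · exact hH (by simpa using h')
      obtain ⟨lam, hlam⟩ := IsAlgClosed.exists_pow_nat_eq (c6 * H5 c 1 / (c4 * T5 c 1)) (n := 2)
        (by norm_num)
      have hmu2 : (c6 * H5 c 1 / (c4 * T5 c 1)) ^ 2 = c4 / H5 c 1 := by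
        field_simp
        exact hc.symm
      refine ⟨c, lam, ?_, hc0, hcq, ?_, ?_⟩
      · rintro rfl
        have : c6 * H5 c 1 / (c4 * T5 c 1) = 0 := by rw [← hlam]; ring
        rcases div_eq_zero_iff.mp this with h | h
        · exact (mul_ne_zero h6 hH) h
        · exact (mul_ne_zero h4 hT) h
      · have : lam ^ 4 = c4 / H5 c 1 := by
          have : lam ^ 4 = (lam ^ 2) ^ 2 := by ring
          rw [this, hlam, hmu2]
        rw [this]; field_simp
      · have : lam ^ 6 = c6 / T5 c 1 := by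
          have : lam ^ 6 = (lam ^ 2) * (lam ^ 2) ^ 2 := by ring
          rw [this, hlam, hmu2]; field_simp
        rw [this]; field_simp

end Field

end Fermat.Agent.S52.H890
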