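import Mathlib
import Fermat.Agent.S52.H410.Tate5
import Fermat.Agent.S52.H410.Tate5Exists
import Fermat.Agent.S52.H410.InvVC
import Fermat.Agent.S52.H309.VarChange
import Fermat.Agent.S52.H890.TateExists

/-!
# S52 / H890 : piece B1b = LIFT of a `5`-torsion point to a family in Tate normal form

`K` a field with `2, 3 ≠ 0`, `W` a Weierstrass curve over `K[X]` (a one-parameter family) whose
invariants are `c₄ = u⁴·H5(N, D)`, `c₆ = u⁶·T5(N, D)` with `N, D ∈ K[X]` nonzero, `u ∈ Kˣ`.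
Then the explicit polynomial point `(liftX, liftY)` is a nonsingular point of `W` over `RatFunc K`
killed by `5` (`exists_lift`), and its value at `X = a` (where `D(a) ≠ 0`) is the `(r, t)` of the
variable change carrying the fibre `W(a)` to the Tate normal form with parameter `N(a)/D(a)`
(`liftX_eval`, `liftY_eval`).  In particular (`exists_lift_of_tnf`): if `(x₀, y₀)` on `W(0)` has
Tate data `C₀ • W(0) = tnf c 1`, `C₀.r = x₀`, `C₀.t = y₀`, `C₀.u = u`, and `N(0) = c`, `D(0) = 1`,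
the lift passes through `(x₀, y₀)` at `X = 0`.
-/

set_option autoImplicit false

namespace Fermat.Agent.S52.H890

open WeierstrassCurve Polynomial
open Fermat.Agent.S52.H410
open Fermat.Agent.S52.H309

variable {K : Type*} [Field K]

/-- The `s` of the variable change to Tate normal form, as a polynomial. -/
noncomputable def liftS (W : WeierstrassCurve K[X]) (u : K) (N D : K[X]) : K[X] :=
  C (2⁻¹ : K) * (C u * (D - N) - W.a₁)

/-- The `x`-coordinate of the lifted torsion point, as a polynomial. -/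
noncomputable def liftX (W : WeierstrassCurve K[X]) (u : K) (N D : K[X]) : K[X] :=
  C (3⁻¹ : K) * (-(C (u ^ 2) * N * D) - W.a₂ + liftS W u N D * W.a₁ + liftS W u N D ^ 2)

/-- The `y`-coordinate of the lifted torsion point, as a polynomial. -/
noncomputable def liftY (W : WeierstrassCurve K[X]) (u : K) (N D : K[X]) : K[X] :=
  C (2⁻¹ : K) * (-(C (u ^ 3) * N * D ^ 2) - W.a₃ - liftX W u N D * W.a₁)

section Generic

local notation "φ" => algebraMap K[X] (RatFunc K)

lemma two_ne_zero_ratFunc (h2 : (2 : K) ≠ 0) : (2 : RatFunc K) ≠ 0 := by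
  rw [← map_ofNat (algebraMap K (RatFunc K)) 2]
  exact (map_ne_zero (algebraMap K (RatFunc K))).mpr h2

lemma three_ne_zero_ratFunc (h3 : (3 : K) ≠ 0) : (3 : RatFunc K) ≠ 0 := by
  rw [← map_ofNat (algebraMap K (RatFunc K)) 3]
  exact (map_ne_zero (algebraMap K (RatFunc K))).mpr h3

lemma phi_C (b : K) : φ (C b) = algebraMap K (RatFunc K) b := by
  simp [RatFunc.algebraMap_C]

lemma phi_C_inv (a : K) : φ (C (a⁻¹)) = (φ (C a))⁻¹ := by
  rw [phi_C, phi_C, map_inv₀]

lemma phi_C_two_inv : φ (C (2⁻¹ : K)) = (2 : RatFunc K)⁻¹ := by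
  rw [phi_C, map_inv₀, map_ofNat]

lemma phi_C_three_inv : φ (C (3⁻¹ : K)) = (3 : RatFunc K)⁻¹ := by
  rw [phi_C, map_inv₀, map_ofNat]

lemma phi_ne_zero {p : K[X]} (hp : p ≠ 0) : φ p ≠ 0 := by
  intro h
  apply hp
  exact (IsFractionRing.injective K[X] (RatFunc K)) (by simpa using h)

/-- A small helper: rewriting the coordinates of an affine point. -/
lemma some_eq_some_of_eq {F : Type*} [Field F] {W : Affine F} {x y x' y' : F}
    (h : W.Nonsingular x y) (hx : x = x') (hy : y = y') :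
    ∃ h' : W.Nonsingular x' y', Affine.Point.some x y h = Affine.Point.some x' y' h' := by
  subst hx hy; exact ⟨h, rfl⟩

variable [DecidableEq (RatFunc K)]

/-- **LIFT (generic fibre).**  If the invariants of the family `W` over `K[X]` are
`c₄ = u⁴ H5(N,D)`, `c₆ = u⁶ T5(N,D)`, then `(liftX, liftY)` is a nonsingular point of `W` over
`RatFunc K` which is killed by `5`. -/
theorem exists_lift (h2 : (2 : K) ≠ 0) (h3 : (3 : K) ≠ 0)
    (W : WeierstrassCurve K[X]) (u : Kˣ) (N D : K[X]) (hN : N ≠ 0) (hD : D ≠ 0)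
    (hc4 : W.c₄ = C ((u : K) ^ 4) * H5 N D) (hc6 : W.c₆ = C ((u : K) ^ 6) * T5 N D) :
    ∃ h : (W.map φ).toAffine.Nonsingular (φ (liftX W u N D)) (φ (liftY W u N D)),
      (5 : ℕ) • Affine.Point.some _ _ h = 0 := by
  have h2L := two_ne_zero_ratFunc h2
  have h3L := three_ne_zero_ratFunc h3
  have hNL : φ N ≠ 0 := phi_ne_zero hN
  have hDL : φ D ≠ 0 := phi_ne_zero hD
  have huL : φ (C (u : K)) ≠ 0 := phi_ne_zero (by simp)
  set c' : RatFunc K := φ N / φ D with hc'
  have hc'0 : c' ≠ 0 := div_ne_zero hNL hDL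
  set u' : (RatFunc K)ˣ := Units.mk0 (φ (C (u : K)) * φ D) (mul_ne_zero huL hDL) with hu'
  have hu'v : (u' : RatFunc K) = φ (C (u : K)) * φ D := rfl
  -- matching invariants
  have h4 : (W.map φ).c₄ = (u' : RatFunc K) ^ 4 * (tnf c' 1).c₄ := by
    rw [WeierstrassCurve.map_c₄, hc4, tnf_c₄, hu'v, hc']
    simp only [H5, map_mul, map_add, map_sub, map_pow, map_ofNat]
    field_simp
  have h6 : (W.map φ).c₆ = (u' : RatFunc K) ^ 6 * (tnf c' 1).c₆ := by
    rw [WeierstrassCurve.map_c₆, hc6, tnf_c₆, hu'v, hc']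
    simp only [T5, map_mul, map_add, map_sub, map_pow, map_ofNat, map_neg]
    field_simp
  have hCL : vcOfInv u' (W.map φ) (tnf c' 1) • (W.map φ) = tnf c' 1 :=
    vcOfInv_smul h2L h3L u' _ _ h4 h6
  set CL := vcOfInv u' (W.map φ) (tnf c' 1) with hCLdef
  -- the Tate point and its image
  have hP5 : (5 : ℕ) • tnfP (c := c') (u := (1 : RatFunc K)) hc'0 one_ne_zero = 0 :=
    tnfP_five_nsmul hc'0 one_ne_zero
  have hcurve : (tnf c' 1).toAffine = (CL • (W.map φ)).toAffine := hCL.symm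
  let Q : (W.map φ).toAffine.Point :=
    VC.equiv (W := W.map φ) (C := CL) (VC.pointCongr hcurve (tnfP hc'0 one_ne_zero))
  have hQ5 : (5 : ℕ) • Q = 0 := by
    simp only [Q]
    rw [← map_nsmul, ← map_nsmul, hP5, map_zero, map_zero]
  -- coordinates of `Q`
  have hs : CL.s = φ (liftS W u N D) := by
    rw [hCLdef, vcOfInv_s, tnf_a₁, hu'v, hc', WeierstrassCurve.map_a₁]
    simp only [liftS, map_mul, map_sub, phi_C_two_inv]
    field_simp
  have hr : CL.r = φ (liftX W u N D) := by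
    rw [hCLdef, vcOfInv_r, ← hCLdef, hs, tnf_a₂, hu'v, hc', WeierstrassCurve.map_a₁,
      WeierstrassCurve.map_a₂]
    simp only [liftX, map_mul, map_sub, map_add, map_neg, map_pow, phi_C_three_inv]
    field_simp
  have ht : CL.t = φ (liftY W u N D) := by
    rw [hCLdef, vcOfInv_t, ← hCLdef, hr, tnf_a₃, hu'v, hc', WeierstrassCurve.map_a₁,
      WeierstrassCurve.map_a₃]
    simp only [liftY, map_mul, map_sub, map_neg, map_pow, phi_C_two_inv]
    field_simp
  have hQ : ∃ h : (W.map φ).toAffine.Nonsingular (φ (liftX W u N D)) (φ (liftY W u N D)),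
      Q = Affine.Point.some _ _ h := by
    simp only [Q, tnfP, VC.pointCongr_some, VC.equiv_some]
    apply some_eq_some_of_eq
    · simp only [VC.fx, mul_zero, zero_add]; exact hr
    · simp only [VC.fy, mul_zero, zero_add]; exact ht
  obtain ⟨h, hQe⟩ := hQ
  exact ⟨h, hQe ▸ hQ5⟩

end Generic

section Eval

/-- Value of `liftS` at `X = a`. -/
lemma liftS_eval (W : WeierstrassCurve K[X]) (u : K) (N D : K[X]) (a : K) :
    (liftS W u N D).eval a = (u * (D.eval a - N.eval a) - (W.map (evalRingHom a)).a₁) / 2 := by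
  simp only [liftS, eval_mul, eval_C, eval_sub, WeierstrassCurve.map_a₁, coe_evalRingHom]
  ring

/-- Value of `liftX` at `X = a`. -/
lemma liftX_eval (W : WeierstrassCurve K[X]) (u : K) (N D : K[X]) (a : K) :
    (liftX W u N D).eval a = (-(u ^ 2 * N.eval a * D.eval a) - (W.map (evalRingHom a)).a₂
      + (liftS W u N D).eval a * (W.map (evalRingHom a)).a₁ + (liftS W u N D).eval a ^ 2) / 3 := by
  simp only [liftX, eval_mul, eval_C, eval_sub, eval_add, eval_neg, eval_pow,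
    WeierstrassCurve.map_a₁, WeierstrassCurve.map_a₂, coe_evalRingHom]
  ring

/-- Value of `liftY` at `X = a`. -/
lemma liftY_eval (W : WeierstrassCurve K[X]) (u : K) (N D : K[X]) (a : K) :
    (liftY W u N D).eval a = (-(u ^ 3 * N.eval a * D.eval a ^ 2) - (W.map (evalRingHom a)).a₃
      - (liftX W u N D).eval a * (W.map (evalRingHom a)).a₁) / 2 := by
  simp only [liftY, eval_mul, eval_C, eval_sub, eval_neg, eval_pow,
    WeierstrassCurve.map_a₁, WeierstrassCurve.map_a₃, coe_evalRingHom]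
  ring

/-- If the fibre `W(a)` is carried to the Tate normal form `tnf c 1` by the variable change `C₀`
and `N(a) = c`, `D(a) = 1`, then the lift (built with `u = C₀.u`) passes through `(C₀.r, C₀.t)`
at `X = a`. -/
theorem lift_eval_of_tnf (h2 : (2 : K) ≠ 0) (h3 : (3 : K) ≠ 0) (W : WeierstrassCurve K[X])
    (a c : K) (C₀ : VariableChange K) (hC₀ : C₀ • (W.map (evalRingHom a)) = tnf c 1)
    (N D : K[X]) (hN : N.eval a = c) (hD : D.eval a = 1) :
    (liftX W (C₀.u : K) N D).eval a = C₀.r ∧ (liftY W (C₀.u : K) N D).eval a = C₀.t := by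
  have hC := eq_vcOfInv h2 h3 C₀ _ _ hC₀
  have hs : (liftS W (C₀.u : K) N D).eval a = C₀.s := by
    rw [liftS_eval, hN, hD]
    conv_rhs => rw [hC, vcOfInv_s, tnf_a₁]
    ring
  have hr : (liftX W (C₀.u : K) N D).eval a = C₀.r := by
    rw [liftX_eval, hs, hN, hD]
    conv_rhs => rw [hC, vcOfInv_r, ← hC, tnf_a₂]
    ring
  refine ⟨hr, ?_⟩
  rw [liftY_eval, hr, hN, hD]
  conv_rhs => rw [hC, vcOfInv_t, ← hC, tnf_a₃]
  ring

end Eval

section Main

local notation "φ" => algebraMap K[X] (RatFunc K)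

variable [DecidableEq (RatFunc K)]

/-- **B1b = LIFT.**  Let `W` be a family of Weierstrass curves over `K[X]` (`2, 3 ≠ 0` in `K`),
`(x₀, y₀)` a point of the fibre at `X = a` killed by `5`.  Suppose that for the Tate parameters
`(c, C₀)` of this point (as provided by `H410.exists_tnf`) the invariants of the family are
`c₄ = C₀.u⁴·H5(N,D)`, `c₆ = C₀.u⁶·T5(N,D)` for polynomials `N, D` with `N(a) = c`, `D(a) = 1`.
Then there are polynomials `px, py` with `px(a) = x₀`, `py(a) = y₀` such that `(px, py)` is a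
nonsingular point of the generic fibre (over `RatFunc K`) killed by `5`. -/
theorem exists_lift_of_tnf (h2 : (2 : K) ≠ 0) (h3 : (3 : K) ≠ 0) (W : WeierstrassCurve K[X])
    (a : K) {x₀ y₀ : K} (c : K) (hc : c ≠ 0) (C₀ : VariableChange K)
    (hC₀ : C₀ • (W.map (evalRingHom a)) = tnf c 1) (hr : C₀.r = x₀) (ht : C₀.t = y₀)
    (N D : K[X]) (hN : N.eval a = c) (hD : D.eval a = 1)
    (hc4 : W.c₄ = C ((C₀.u : K) ^ 4) * H5 N D) (hc6 : W.c₆ = C ((C₀.u : K) ^ 6) * T5 N D) :
    ∃ px py : K[X], px.eval a = x₀ ∧ py.eval a = y₀ ∧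
      ∃ h : (W.map φ).toAffine.Nonsingular (φ px) (φ py),
        (5 : ℕ) • Affine.Point.some _ _ h = 0 := by
  have hN0 : N ≠ 0 := by
    rintro rfl; apply hc; rw [← hN]; simp
  have hD0 : D ≠ 0 := by
    rintro rfl; simp at hD
  obtain ⟨h, h5⟩ := exists_lift h2 h3 W C₀.u N D hN0 hD0 hc4 hc6
  obtain ⟨e1, e2⟩ := lift_eval_of_tnf h2 h3 W a c C₀ hC₀ N D hN hD
  exact ⟨_, _, e1.trans hr, e2.trans ht, h, h5⟩

omit [DecidableEq (RatFunc K)] in
/-- Invariants of the fibre in terms of the Tate data. -/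
lemma c₄_c₆_of_tnf (W₀ : WeierstrassCurve K) (c : K) (C₀ : VariableChange K)
    (hC₀ : C₀ • W₀ = tnf c 1) :
    W₀.c₄ = (C₀.u : K) ^ 4 * H5 c 1 ∧ W₀.c₆ = (C₀.u : K) ^ 6 * T5 c 1 := by
  have hu : (C₀.u : K) ≠ 0 := C₀.u.ne_zero
  have hinv : ((C₀.u⁻¹ : Kˣ) : K) = (C₀.u : K)⁻¹ := Units.val_inv_eq_inv_val C₀.u
  have e4 : (tnf c 1).c₄ = (C₀.u : K)⁻¹ ^ 4 * W₀.c₄ := by
    rw [← hC₀, variableChange_c₄, hinv]
  have e6 : (tnf c 1).c₆ = (C₀.u : K)⁻¹ ^ 6 * W₀.c₆ := by
    rw [← hC₀, variableChange_c₆, hinv]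
  rw [tnf_c₄] at e4
  rw [tnf_c₆] at e6
  constructor
  · simp only [H5]
    field_simp at e4
    linear_combination -e4
  · simp only [T5]
    field_simp at e6
    linear_combination -e6

variable [DecidableEq K]

/-- **B1b = LIFT, plug-in form.**  `W` a family over `K[X]`, `a : K`.  Assume the *family
identities*: whenever the fibre `W(a)` has invariants `(u⁴·H5(c,1), u⁶·T5(c,1))`, the family has
invariants `(u⁴·H5(N,D), u⁶·T5(N,D))` for polynomials `N = Nf c u`, `D = Df c u` with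
`N(a) = c`, `D(a) = 1`.  Then every point `(x₀, y₀)` of the fibre `W(a)` killed by `5` is the value
at `X = a` of a polynomial point of the generic fibre killed by `5`. -/
theorem exists_lift_of_identities (h2 : (2 : K) ≠ 0) (h3 : (3 : K) ≠ 0)
    (W : WeierstrassCurve K[X]) (a : K) (Nf Df : K → K → K[X])
    (hN : ∀ c u, (Nf c u).eval a = c) (hD : ∀ c u, (Df c u).eval a = 1)
    (hI : ∀ c u : K, (W.map (evalRingHom a)).c₄ = u ^ 4 * H5 c 1 →
      (W.map (evalRingHom a)).c₆ = u ^ 6 * T5 c 1 →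
      W.c₄ = C (u ^ 4) * H5 (Nf c u) (Df c u) ∧ W.c₆ = C (u ^ 6) * T5 (Nf c u) (Df c u))
    {x₀ y₀ : K} (h₀ : (W.map (evalRingHom a)).toAffine.Nonsingular x₀ y₀)
    (h5 : (5 : ℕ) • Affine.Point.some x₀ y₀ h₀ = 0) :
    ∃ px py : K[X], px.eval a = x₀ ∧ py.eval a = y₀ ∧
      ∃ h : (W.map φ).toAffine.Nonsingular (φ px) (φ py),
        (5 : ℕ) • Affine.Point.some _ _ h = 0 := by
  obtain ⟨c, C₀, hc, hC₀, hr, ht⟩ := exists_tnf (W.map (evalRingHom a)) h₀ h5
  obtain ⟨e4, e6⟩ := c₄_c₆_of_tnf _ c C₀ hC₀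
  obtain ⟨i4, i6⟩ := hI c (C₀.u : K) e4 e6
  exact exists_lift_of_tnf h2 h3 W a c hc C₀ hC₀ hr ht _ _ (hN _ _) (hD _ _) i4 i6

end Main

end Fermat.Agent.S52.H890
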